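import Mathlib
import Fermat.Prelude.Def_ModularForm_HeckeOperator
import Fermat.Prelude.Thm_ModularForm_heckeU_slash_eq_self_of_mem_Gamma0

/-!
# NEWFORM lib, piece (b): the trace identity at a prime `q ∥ N`  (helper503)

Let `N = q * M` with `q` prime and let `A = [[q a, b], [N c, q d]]` be an Atkin–Lehner matrix
(`q a d - M b c = 1`, so `det A = q`; this forces `q ∤ M`).  For every `f : ℍ → ℂ` which is
weight-`k` invariant under `Γ₀(N)`, the function

  `heckeU k q f + f ∣[k] A`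

is invariant under `Γ₀(M) = Γ₀(N / q)`  (this is `Tr^N_{N/q} (f ∣ W_q)` in the normalisation of
Mathlib's slash action).  The proof is the explicit permutation of `P¹(𝔽_q)` already used by the
Prelude for `T_q`, with the representative at `∞` replaced by `A`.

Main statements:
* `IsALMatrix q M A a b c d`, `IsALMatrix.exists_of_coprime`
* `IsALMatrix.alRep_mul` : `alRep q A x * g = g' * alRep q A (redMatrix q g • x)`, `g' ∈ Γ₀(q M)`
* `IsALMatrix.slash_mapGL_eq` : `A` normalises `Γ₀(q M)` (on invariant functions)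
* `IsALMatrix.heckeU_add_slash_mapGL`, `IsALMatrix.heckeU_add_slash_eq_self_of_mem_Gamma0`
* `heckeU_add_slash_eq_self_of_mem_Gamma0_div` : the same with `N` and `N / q`.
-/

set_option autoImplicit false

noncomputable section

open Matrix.SpecialLinearGroup UpperHalfPlane ModularForm
open scoped MatrixGroups ModularForm OnePoint
open P2MW.S_ModularForm_heckeU_slash_eq_self_of_mem_Gamma0.ModularForm.HeckeSlashInvariance

namespace Fermat.Agent.Lib.Newform.H503

/-- An element of `SL(2, ℤ)` from its entries. -/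
def mkSL (x y z w : ℤ) (h : x * w - y * z = 1) : SL(2, ℤ) :=
  ⟨!![x, y; z, w], by rw [Matrix.det_fin_two_of]; exact h⟩

@[simp] theorem mkSL_zero_zero (x y z w : ℤ) (h : x * w - y * z = 1) :
    mkSL x y z w h 0 0 = x := rfl
@[simp] theorem mkSL_zero_one (x y z w : ℤ) (h : x * w - y * z = 1) :
    mkSL x y z w h 0 1 = y := rfl
@[simp] theorem mkSL_one_zero (x y z w : ℤ) (h : x * w - y * z = 1) :
    mkSL x y z w h 1 0 = z := rfl
@[simp] theorem mkSL_one_one (x y z w : ℤ) (h : x * w - y * z = 1) :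
    mkSL x y z w h 1 1 = w := rfl

/-- `A` is an Atkin–Lehner matrix at `q` for the level `q * M`, with integer parameters
`a b c d`: `A = [[q a, b], [q M c, q d]]` and `q a d - M b c = 1`. -/
structure IsALMatrix (q M : ℕ) (A : GL (Fin 2) ℝ) (a b c d : ℤ) : Prop where
  val_eq : (A : Matrix (Fin 2) (Fin 2) ℝ) =
    !![(q : ℝ) * a, (b : ℝ); (q : ℝ) * M * c, (q : ℝ) * d]
  det_rel : (q : ℤ) * a * d - (M : ℤ) * b * c = 1

namespace IsALMatrix

variable {q M : ℕ} {A : GL (Fin 2) ℝ} {a b c d : ℤ}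

theorem apply_zero_zero (hA : IsALMatrix q M A a b c d) :
    (A : Matrix (Fin 2) (Fin 2) ℝ) 0 0 = (q : ℝ) * a := by rw [hA.val_eq]; rfl

theorem apply_zero_one (hA : IsALMatrix q M A a b c d) :
    (A : Matrix (Fin 2) (Fin 2) ℝ) 0 1 = (b : ℝ) := by rw [hA.val_eq]; rfl

theorem apply_one_zero (hA : IsALMatrix q M A a b c d) :
    (A : Matrix (Fin 2) (Fin 2) ℝ) 1 0 = (q : ℝ) * M * c := by rw [hA.val_eq]; rfl

theorem apply_one_one (hA : IsALMatrix q M A a b c d) :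
    (A : Matrix (Fin 2) (Fin 2) ℝ) 1 1 = (q : ℝ) * d := by rw [hA.val_eq]; rfl

/-- The cast of the determinant relation. -/
theorem det_rel_real (hA : IsALMatrix q M A a b c d) :
    (q : ℝ) * a * d - (M : ℝ) * b * c = 1 := by
  have := congrArg (Int.cast : ℤ → ℝ) hA.det_rel
  push_cast at this
  exact this

/-- `b` is a unit modulo `q`. -/
theorem b_ne_zero [Fact q.Prime] (hA : IsALMatrix q M A a b c d) : ((b : ℤ) : ZMod q) ≠ 0 := by
  intro hb
  have := congrArg (Int.cast : ℤ → ZMod q) hA.det_rel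
  push_cast at this
  rw [hb] at this
  simp at this

/-- `M` is a unit modulo `q`: the level is exactly divisible by `q`. -/
theorem M_ne_zero [Fact q.Prime] (hA : IsALMatrix q M A a b c d) : ((M : ℕ) : ZMod q) ≠ 0 := by
  intro hb
  have := congrArg (Int.cast : ℤ → ZMod q) hA.det_rel
  push_cast at this
  rw [hb] at this
  simp at this

theorem not_dvd [Fact q.Prime] (hA : IsALMatrix q M A a b c d) : ¬ q ∣ M := by
  intro h
  exact hA.M_ne_zero ((ZMod.natCast_eq_zero_iff _ _).mpr h)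

/-- (II) finite representative to the Atkin–Lehner representative. -/
theorem heckeMatrix_mul_eq (hA : IsALMatrix q M A a b c d) (hq : q ≠ 0) (g : SL(2, ℤ)) (j : ℕ)
    (e t : ℤ) (he : g 0 0 + j * g 1 0 = q * e) (ht : g 1 0 = M * t) :
    ∃ g' : SL(2, ℤ), (((q * M : ℕ) : ℤ)) ∣ g' 1 0 ∧
      heckeMatrix q j * mapGL ℝ g = mapGL ℝ g' * A := by
  have hdet := P2MW.S_ModularForm_heckeU_slash_eq_self_of_mem_Gamma0.ModularForm.HeckeSlashInvariance.det_eq g
  have hD := hA.det_rel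
  refine ⟨mkSL ((g 0 0 + j * g 1 0) * d - (g 0 1 + j * g 1 1) * M * c)
      (-(e * b) + (g 0 1 + j * g 1 1) * a)
      (q * g 1 0 * d - q * M * g 1 1 * c) (-(g 1 0 * b) + q * g 1 1 * a) ?_, ?_, ?_⟩
  · linear_combination (q * a * d - M * b * c) * hdet + hD
      + (M * b * c * g 1 1 - b * d * g 1 0) * he
  · refine ⟨t * d - g 1 1 * c, ?_⟩
    rw [mkSL_one_zero]
    push_cast
    rw [ht]
    ring
  · have hDr := hA.det_rel_real
    have her := congrArg (Int.cast : ℤ → ℝ) he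
    push_cast at her
    ext i j
    fin_cases i <;> fin_cases j <;>
      simp [hq, Matrix.mul_apply, Fin.sum_univ_two, hA.apply_zero_zero, hA.apply_zero_one,
        hA.apply_one_zero, hA.apply_one_one]
    · linear_combination (-((g 0 0 : ℤ) : ℝ) - j * ((g 1 0 : ℤ) : ℝ)) * hDr - (M * b * c : ℝ) * her
    · linear_combination (-((g 0 1 : ℤ) : ℝ) - j * ((g 1 1 : ℤ) : ℝ)) * hDr - (b * d : ℝ) * her
    · linear_combination (-(q : ℝ) * ((g 1 0 : ℤ) : ℝ)) * hDr
    · linear_combination (-(q : ℝ) * ((g 1 1 : ℤ) : ℝ)) * hDr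

/-- (III) the Atkin–Lehner representative to a finite representative. -/
theorem mul_eq_heckeMatrix (hA : IsALMatrix q M A a b c d) (hq : q ≠ 0) (g : SL(2, ℤ)) (j' : ℕ)
    (e t : ℤ) (he : g 1 1 = g 1 0 * j' + q * e) (ht : g 1 0 = M * t) :
    ∃ g' : SL(2, ℤ), (((q * M : ℕ) : ℤ)) ∣ g' 1 0 ∧
      A * mapGL ℝ g = mapGL ℝ g' * heckeMatrix q j' := by
  have hdet := P2MW.S_ModularForm_heckeU_slash_eq_self_of_mem_Gamma0.ModularForm.HeckeSlashInvariance.det_eq g
  have hD := hA.det_rel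
  refine ⟨mkSL (q * a * g 0 0 + b * g 1 0)
      (-(j' * a * g 0 0) + a * g 0 1 + b * e)
      (q * M * c * g 0 0 + q * d * g 1 0)
      (-(j' * M * c * g 0 0) - j' * d * g 1 0 + M * c * g 0 1 + d * g 1 1) ?_, ?_, ?_⟩
  · linear_combination (q * a * d - M * b * c) * hdet + hD
      + (M * b * c * g 0 0 + b * d * g 1 0) * he
  · refine ⟨c * g 0 0 + d * t, ?_⟩
    rw [mkSL_one_zero]
    push_cast
    rw [ht]
    ring
  · have her := congrArg (Int.cast : ℤ → ℝ) he
    push_cast at her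
    ext i j
    fin_cases i <;> fin_cases j <;>
      simp [hq, Matrix.mul_apply, Fin.sum_univ_two, hA.apply_zero_zero, hA.apply_zero_one,
        hA.apply_one_zero, hA.apply_one_one]
    · linear_combination (b : ℝ) * her
    · ring

/-- (IV) the Atkin–Lehner matrix normalises `Γ₀(q M)`. -/
theorem mul_eq_mul (hA : IsALMatrix q M A a b c d) (g : SL(2, ℤ))
    (t : ℤ) (ht : g 1 0 = q * M * t) :
    ∃ g' : SL(2, ℤ), (((q * M : ℕ) : ℤ)) ∣ g' 1 0 ∧
      A * mapGL ℝ g = mapGL ℝ g' * A := by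
  have hdet := P2MW.S_ModularForm_heckeU_slash_eq_self_of_mem_Gamma0.ModularForm.HeckeSlashInvariance.det_eq g
  have hD := hA.det_rel
  refine ⟨mkSL ((q * a * g 0 0 + b * g 1 0) * d - (q * a * g 0 1 + b * g 1 1) * M * c)
      (-(a * b * g 0 0) - b ^ 2 * M * t + q * a ^ 2 * g 0 1 + a * b * g 1 1)
      (q * M * c * d * g 0 0 + q * d ^ 2 * g 1 0 - q * M * M * c ^ 2 * g 0 1
        - q * M * c * d * g 1 1)
      (-(M * b * c * g 0 0) - d * b * g 1 0 + q * M * a * c * g 0 1 + q * a * d * g 1 1) ?_,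
      ?_, ?_⟩
  · linear_combination (q * a * d - M * b * c) ^ 2 * hdet + (q * a * d - M * b * c + 1) * hD
      - b ^ 2 * (M * c * d * g 0 0 + d ^ 2 * g 1 0 - M ^ 2 * c ^ 2 * g 0 1 - M * c * d * g 1 1) * ht
  · refine ⟨c * d * g 0 0 + q * d ^ 2 * t - M * c ^ 2 * g 0 1 - c * d * g 1 1, ?_⟩
    rw [mkSL_one_zero]
    push_cast
    rw [ht]
    ring
  · have hDr := hA.det_rel_real
    have htr := congrArg (Int.cast : ℤ → ℝ) ht
    push_cast at htr
    ext i j
    fin_cases i <;> fin_cases j <;>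
      simp [Matrix.mul_apply, Fin.sum_univ_two, hA.apply_zero_zero, hA.apply_zero_one,
        hA.apply_one_zero, hA.apply_one_one]
    · linear_combination (-((q : ℝ) * a * ((g 0 0 : ℤ) : ℝ) + b * ((g 1 0 : ℤ) : ℝ))) * hDr
        - ((M : ℝ) * b ^ 2 * c) * htr
    · linear_combination (-((q : ℝ) * a * ((g 0 1 : ℤ) : ℝ) + b * ((g 1 1 : ℤ) : ℝ))) * hDr
        - ((b : ℝ) ^ 2 * d) * htr
    · linear_combination
        (-((q : ℝ) * M * c * ((g 0 0 : ℤ) : ℝ) + q * d * ((g 1 0 : ℤ) : ℝ))) * hDr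
    · linear_combination
        (-((q : ℝ) * M * c * ((g 0 1 : ℤ) : ℝ) + q * d * ((g 1 1 : ℤ) : ℝ))) * hDr

/-- The `q + 1` representatives: the Prelude's `heckeMatrix q j` at the finite points of
`P¹(𝔽_q)` and the Atkin–Lehner matrix `A` at `∞`. -/
def _root_.Fermat.Agent.Lib.Newform.H503.alRep (q : ℕ) (A : GL (Fin 2) ℝ)
    (x : OnePoint (ZMod q)) : GL (Fin 2) ℝ :=
  x.elim A (fun j ↦ heckeMatrix q j.val)

@[simp] theorem _root_.Fermat.Agent.Lib.Newform.H503.alRep_infty (q : ℕ) (A : GL (Fin 2) ℝ) :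
    alRep q A ∞ = A := rfl

@[simp] theorem _root_.Fermat.Agent.Lib.Newform.H503.alRep_coe (q : ℕ) (A : GL (Fin 2) ℝ)
    (j : ZMod q) : alRep q A j = heckeMatrix q j.val := rfl

theorem _root_.Fermat.Agent.Lib.Newform.H503.heckeU_add_slash_eq_sum_onePoint (q : ℕ)
    [NeZero q] (A : GL (Fin 2) ℝ) (k : ℤ) (f : ℍ → ℂ) :
    heckeU k q f + f ∣[k] A = ∑ x : OnePoint (ZMod q), f ∣[k] alRep q A x := by
  rw [heckeU_eq_sum_zmod, add_comm]
  exact (Fintype.sum_option (fun x : OnePoint (ZMod q) ↦ f ∣[k] alRep q A x)).symm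

variable [Fact q.Prime]

/-- The transfer formula: right multiplication by `g ∈ Γ₀(M)` permutes the `q + 1`
representatives (by the Prelude's `redMatrix q g` acting on `P¹(𝔽_q)`), up to left
multiplication by elements of `Γ₀(q M)`. -/
theorem alRep_mul (hA : IsALMatrix q M A a b c d) (g : SL(2, ℤ)) (hg : (M : ℤ) ∣ g 1 0)
    (x : OnePoint (ZMod q)) :
    ∃ g' : SL(2, ℤ), (((q * M : ℕ) : ℤ)) ∣ g' 1 0 ∧
      alRep q A x * mapGL ℝ g = mapGL ℝ g' * alRep q A (redMatrix q g • x) := by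
  have hq : q ≠ 0 := (Fact.out : q.Prime).ne_zero
  obtain ⟨t, ht⟩ := hg
  induction x using OnePoint.rec with
  | infty =>
    rw [OnePoint.smul_infty_eq_ite]
    by_cases hc : ((g 1 0 : ℤ) : ZMod q) = 0
    · rw [if_pos (by simpa using hc), alRep_infty]
      -- `q ∣ g 1 0` and `M ∣ g 1 0`, hence `q M ∣ g 1 0`
      have hqt : ((t : ℤ) : ZMod q) = 0 := by
        have h1 := hc
        rw [ht] at h1
        push_cast at h1
        rcases mul_eq_zero.mp h1 with h | h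
        · exact absurd h hA.M_ne_zero
        · exact h
      obtain ⟨s, hs⟩ := (ZMod.intCast_zmod_eq_zero_iff_dvd _ _).mp hqt
      exact hA.mul_eq_mul g s (by rw [ht, hs]; ring)
    · rw [if_neg (by simpa using hc), alRep_infty, alRep_coe]
      set y : ZMod q := redMatrix q g 0 0 / redMatrix q g 1 0 with hy
      obtain ⟨e, he⟩ : (q : ℤ) ∣ g 1 1 - g 1 0 * y.val := by
        rw [← ZMod.intCast_zmod_eq_zero_iff_dvd]
        push_cast
        rw [ZMod.natCast_zmod_val, hy, redMatrix_apply_zero_zero, redMatrix_apply_one_zero,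
          mul_div_cancel₀ _ hc, sub_self]
      exact hA.mul_eq_heckeMatrix hq g y.val e t (by linear_combination he) ht
  | coe j =>
    rw [OnePoint.smul_some_eq_ite]
    by_cases h : redMatrix q g 1 0 * j + redMatrix q g 1 1 = 0
    · rw [if_pos h, alRep_infty, alRep_coe]
      rw [redMatrix_apply_one_zero, redMatrix_apply_one_one] at h
      obtain ⟨e, he⟩ : (q : ℤ) ∣ g 0 0 + j.val * g 1 0 := by
        rw [← ZMod.intCast_zmod_eq_zero_iff_dvd]
        push_cast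
        rw [ZMod.natCast_zmod_val]
        linear_combination h
      exact hA.heckeMatrix_mul_eq hq g j.val e t he ht
    · rw [if_neg h, alRep_coe, alRep_coe]
      set y : ZMod q := (redMatrix q g 0 0 * j + redMatrix q g 0 1) /
        (redMatrix q g 1 0 * j + redMatrix q g 1 1) with hy
      obtain ⟨e, he⟩ : (q : ℤ) ∣ g 0 1 + j.val * g 1 1 - y.val * (g 0 0 + j.val * g 1 0) := by
        rw [← ZMod.intCast_zmod_eq_zero_iff_dvd]
        push_cast
        rw [ZMod.natCast_zmod_val, ZMod.natCast_zmod_val,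
          show ((g 0 0 : ℤ) : ZMod q) + j * ((g 1 0 : ℤ) : ZMod q)
            = redMatrix q g 1 0 * j + redMatrix q g 1 1 by
              rw [redMatrix_apply_one_zero, redMatrix_apply_one_one]; ring,
          hy, div_mul_cancel₀ _ h, redMatrix_apply_zero_zero, redMatrix_apply_zero_one]
        ring
      obtain ⟨g', hg', hmul⟩ := heckeMatrix_mul_of_eq hq g j.val y.val e (by linear_combination he)
      refine ⟨g', ?_, hmul⟩
      rw [hg', ht]
      exact ⟨t, by push_cast; ring⟩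

variable (k : ℤ)

/-- **Trace identity** (`SL(2, ℤ)` form).  If `f` is `Γ₀(q M)`-invariant of weight `k` and `A` is
an Atkin–Lehner matrix at `q`, then `U_q f + f ∣ A` is `Γ₀(M)`-invariant. -/
theorem heckeU_add_slash_mapGL (hA : IsALMatrix q M A a b c d) (f : ℍ → ℂ)
    (hf : ∀ γ ∈ (CongruenceSubgroup.Gamma0 (q * M) : Subgroup (GL (Fin 2) ℝ)), f ∣[k] γ = f)
    (g : SL(2, ℤ)) (hg : g ∈ CongruenceSubgroup.Gamma0 M) :
    (heckeU k q f + f ∣[k] A) ∣[k] (mapGL ℝ g) = heckeU k q f + f ∣[k] A := by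
  have hcM : (M : ℤ) ∣ g 1 0 :=
    (ZMod.intCast_zmod_eq_zero_iff_dvd _ _).mp (CongruenceSubgroup.Gamma0_mem.mp hg)
  rw [heckeU_add_slash_eq_sum_onePoint q A k f, SlashAction.sum_slash]
  calc ∑ x : OnePoint (ZMod q), (f ∣[k] alRep q A x) ∣[k] mapGL ℝ g
      = ∑ x : OnePoint (ZMod q), f ∣[k] alRep q A (redMatrix q g • x) := by
        refine Finset.sum_congr rfl fun x _ ↦ ?_
        obtain ⟨g', hg', hmul⟩ := hA.alRep_mul g hcM x
        have hg'N : g' ∈ CongruenceSubgroup.Gamma0 (q * M) :=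
          CongruenceSubgroup.Gamma0_mem.mpr ((ZMod.intCast_zmod_eq_zero_iff_dvd _ _).mpr hg')
        rw [← SlashAction.slash_mul, hmul, SlashAction.slash_mul,
          hf _ (Subgroup.mem_map_of_mem (mapGL ℝ) hg'N)]
    _ = ∑ x : OnePoint (ZMod q), f ∣[k] alRep q A x :=
        Equiv.sum_comp (MulAction.toPerm (redMatrix q g)) (fun x ↦ f ∣[k] alRep q A x)

/-- **Trace identity.**  If `f` is `Γ₀(q M)`-invariant of weight `k` and `A` is an Atkin–Lehner
matrix at `q`, then `U_q f + f ∣ A` is `Γ₀(M)`-invariant. -/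
theorem heckeU_add_slash_eq_self_of_mem_Gamma0 (hA : IsALMatrix q M A a b c d) {f : ℍ → ℂ}
    (hf : ∀ γ ∈ (CongruenceSubgroup.Gamma0 (q * M) : Subgroup (GL (Fin 2) ℝ)), f ∣[k] γ = f)
    (γ : GL (Fin 2) ℝ) (hγ : γ ∈ (CongruenceSubgroup.Gamma0 M : Subgroup (GL (Fin 2) ℝ))) :
    (heckeU k q f + f ∣[k] A) ∣[k] γ = heckeU k q f + f ∣[k] A := by
  obtain ⟨g, hg, rfl⟩ := hγ
  exact hA.heckeU_add_slash_mapGL k f hf g hg

omit [Fact q.Prime] in
/-- An Atkin–Lehner matrix normalises `Γ₀(q M)`: `f ∣ A` is again `Γ₀(q M)`-invariant. -/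
theorem slash_slash_eq_of_mem_Gamma0 (hA : IsALMatrix q M A a b c d) {f : ℍ → ℂ}
    (hf : ∀ γ ∈ (CongruenceSubgroup.Gamma0 (q * M) : Subgroup (GL (Fin 2) ℝ)), f ∣[k] γ = f)
    (γ : GL (Fin 2) ℝ)
    (hγ : γ ∈ (CongruenceSubgroup.Gamma0 (q * M) : Subgroup (GL (Fin 2) ℝ))) :
    (f ∣[k] A) ∣[k] γ = f ∣[k] A := by
  obtain ⟨g, hg, rfl⟩ := hγ
  have hcN : ((q * M : ℕ) : ℤ) ∣ g 1 0 :=
    (ZMod.intCast_zmod_eq_zero_iff_dvd _ _).mp (CongruenceSubgroup.Gamma0_mem.mp hg)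
  obtain ⟨t, ht⟩ := hcN
  obtain ⟨g', hg', hmul⟩ := hA.mul_eq_mul g t (by rw [ht]; push_cast; ring)
  have hg'N : g' ∈ CongruenceSubgroup.Gamma0 (q * M) :=
    CongruenceSubgroup.Gamma0_mem.mpr ((ZMod.intCast_zmod_eq_zero_iff_dvd _ _).mpr hg')
  rw [← SlashAction.slash_mul, hmul, SlashAction.slash_mul,
    hf _ (Subgroup.mem_map_of_mem (mapGL ℝ) hg'N)]

end IsALMatrix

/-- Atkin–Lehner matrices exist as soon as `q ∤ M` (we may even take `c = d = 1`). -/
theorem exists_isALMatrix {q M : ℕ} (hq : q.Prime) (hqM : ¬ q ∣ M) :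
    ∃ (A : GL (Fin 2) ℝ) (a b : ℤ), IsALMatrix q M A a b 1 1 := by
  have hcop : IsCoprime (q : ℤ) (M : ℤ) :=
    Nat.isCoprime_iff_coprime.mpr ((Nat.Prime.coprime_iff_not_dvd hq).mpr hqM)
  obtain ⟨u, v, huv⟩ := hcop
  have hq0 : (q : ℝ) ≠ 0 := by exact_mod_cast hq.ne_zero
  have huvr : (u : ℝ) * q + v * M = 1 := by exact_mod_cast huv
  refine ⟨Matrix.GeneralLinearGroup.mkOfDetNeZero
      !![(q : ℝ) * u, ((-v : ℤ) : ℝ); (q : ℝ) * M * ((1 : ℤ) : ℝ), (q : ℝ) * ((1 : ℤ) : ℝ)] ?_,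
    u, -v, ⟨rfl, ?_⟩⟩
  · rw [Matrix.det_fin_two_of]
    have : (q : ℝ) * u * (q * ((1 : ℤ) : ℝ)) - ((-v : ℤ) : ℝ) * (q * M * ((1 : ℤ) : ℝ))
        = q := by
      push_cast
      linear_combination (q : ℝ) * huvr
    rw [this]
    exact hq0
  · linear_combination huv

/-- **Trace identity**, stated with the level `N` and `N / q`: if `q ∣ N`, `f` is
`Γ₀(N)`-invariant and `A = [[q a, b], [N c, q d]]` with `q a d - (N / q) b c = 1`, then
`U_q f + f ∣ A` is `Γ₀(N / q)`-invariant. -/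
theorem heckeU_add_slash_eq_self_of_mem_Gamma0_div {N q : ℕ} (hq : q.Prime) (hqN : q ∣ N)
    {A : GL (Fin 2) ℝ} {a b c d : ℤ} (hA : IsALMatrix q (N / q) A a b c d) (k : ℤ)
    {f : ℍ → ℂ}
    (hf : ∀ γ ∈ (CongruenceSubgroup.Gamma0 N : Subgroup (GL (Fin 2) ℝ)), f ∣[k] γ = f)
    (γ : GL (Fin 2) ℝ)
    (hγ : γ ∈ (CongruenceSubgroup.Gamma0 (N / q) : Subgroup (GL (Fin 2) ℝ))) :
    (heckeU k q f + f ∣[k] A) ∣[k] γ = heckeU k q f + f ∣[k] A := by
  have : Fact q.Prime := ⟨hq⟩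
  have hN : q * (N / q) = N := Nat.mul_div_cancel' hqN
  exact hA.heckeU_add_slash_eq_self_of_mem_Gamma0 k (by rw [hN]; exact hf) γ hγ

end Fermat.Agent.Lib.Newform.H503
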