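import Mathlib
import Fermat.Prelude.Def_ModularForm_HeckeOperator
import Fermat.Prelude.Thm_CuspFormClass_isZeroAt_heckeU
import Fermat.Prelude.Thm_ModularForm_mdifferentiable_heckeU
import Fermat.Agent.Lib.Newform.H503.TraceInv

/-!
# NEWFORM lib, piece (d): descent of the level, and the bundled trace `S_k(Γ₀(qM)) → S_k(Γ₀(M))`
(helper503)

* `isCusp_Gamma0_iff` : the cusps of `Γ₀(N)` and `Γ₀(M)` are the same (`N, M ≠ 0`).
* `cuspFormOfInvariant f h : CuspForm (Γ₀(M)) k` for `f : CuspForm (Γ₀(N)) k` whose underlying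
  function is `Γ₀(M)`-invariant (no divisibility needed); `coe_cuspFormOfInvariant`.
* `cuspFormOfFun` : the same from a bare function (holomorphic, zero at the cusps of `SL(2,ℤ)`).
* `IsALMatrix.slashCuspForm hA f : CuspForm (Γ₀(qM)) k`, the Atkin–Lehner operator `f ↦ f ∣ A`.
* `IsALMatrix.traceCuspForm hA f : CuspForm (Γ₀(M)) k`, with underlying function
  `heckeU k q f + f ∣[k] A`.
-/

set_option autoImplicit false

noncomputable section

open Matrix.SpecialLinearGroup UpperHalfPlane ModularForm CongruenceSubgroup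
open scoped MatrixGroups ModularForm OnePoint Manifold

namespace Fermat.Agent.Lib.Newform.H503

/-- The cusps of `Γ₀(N)` do not depend on `N ≠ 0`. -/
theorem isCusp_Gamma0_iff (N M : ℕ) [NeZero N] [NeZero M] {c : OnePoint ℝ} :
    IsCusp c (Gamma0 N : Subgroup (GL (Fin 2) ℝ)) ↔
      IsCusp c (Gamma0 M : Subgroup (GL (Fin 2) ℝ)) := by
  rw [Subgroup.IsArithmetic.isCusp_iff_isCusp_SL2Z (Gamma0 N : Subgroup (GL (Fin 2) ℝ)),
    Subgroup.IsArithmetic.isCusp_iff_isCusp_SL2Z (Gamma0 M : Subgroup (GL (Fin 2) ℝ))]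

/-- A function which is holomorphic, vanishes at every cusp of `SL(2, ℤ)` and is
`Γ₀(M)`-invariant, as a cusp form of level `Γ₀(M)`. -/
def cuspFormOfFun {M : ℕ} [NeZero M] {k : ℤ} (F : ℍ → ℂ) (hol : MDiff F)
    (hzero : ∀ {c : OnePoint ℝ}, IsCusp c 𝒮ℒ → c.IsZeroAt F k)
    (hinv : ∀ γ ∈ (Gamma0 M : Subgroup (GL (Fin 2) ℝ)), F ∣[k] γ = F) :
    CuspForm (Gamma0 M) k where
  toFun := F
  slash_action_eq' := hinv
  holo' := hol
  zero_at_cusps' := fun hc ↦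
    hzero ((Subgroup.IsArithmetic.isCusp_iff_isCusp_SL2Z _).mp hc)

@[simp] theorem coe_cuspFormOfFun {M : ℕ} [NeZero M] {k : ℤ} (F : ℍ → ℂ) (hol : MDiff F)
    (hzero : ∀ {c : OnePoint ℝ}, IsCusp c 𝒮ℒ → c.IsZeroAt F k)
    (hinv : ∀ γ ∈ (Gamma0 M : Subgroup (GL (Fin 2) ℝ)), F ∣[k] γ = F) :
    ⇑(cuspFormOfFun F hol hzero hinv) = F := rfl

/-- **Descent.**  A cusp form of level `Γ₀(N)` whose underlying function is invariant under
`Γ₀(M)` is a cusp form of level `Γ₀(M)`. -/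
def cuspFormOfInvariant {N M : ℕ} [NeZero N] [NeZero M] {k : ℤ} (f : CuspForm (Gamma0 N) k)
    (hinv : ∀ γ ∈ (Gamma0 M : Subgroup (GL (Fin 2) ℝ)), (⇑f : ℍ → ℂ) ∣[k] γ = ⇑f) :
    CuspForm (Gamma0 M) k :=
  cuspFormOfFun (⇑f) (CuspFormClass.holo f)
    (fun hc ↦ CuspFormClass.zero_at_cusps f
      ((Subgroup.IsArithmetic.isCusp_iff_isCusp_SL2Z _).mpr hc)) hinv

@[simp] theorem coe_cuspFormOfInvariant {N M : ℕ} [NeZero N] [NeZero M] {k : ℤ}
    (f : CuspForm (Gamma0 N) k)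
    (hinv : ∀ γ ∈ (Gamma0 M : Subgroup (GL (Fin 2) ℝ)), (⇑f : ℍ → ℂ) ∣[k] γ = ⇑f) :
    ⇑(cuspFormOfInvariant f hinv) = ⇑f := rfl

/-- Raising the level along `M ∣ N` (the inclusion `S_k(Γ₀(M)) ⊆ S_k(Γ₀(N))`). -/
def cuspFormOfDvd {N M : ℕ} [NeZero N] [NeZero M] {k : ℤ} (hMN : M ∣ N)
    (f : CuspForm (Gamma0 M) k) : CuspForm (Gamma0 N) k :=
  cuspFormOfInvariant f (fun γ hγ ↦ by
    obtain ⟨g, hg, rfl⟩ := hγ
    refine SlashInvariantFormClass.slash_action_eq f _ (Subgroup.mem_map_of_mem _ ?_)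
    have hg' : g ∈ Gamma0 N := hg
    rw [Gamma0_mem] at hg' ⊢
    have h1 := (ZMod.intCast_zmod_eq_zero_iff_dvd _ _).mp hg'
    exact (ZMod.intCast_zmod_eq_zero_iff_dvd _ _).mpr
      ((Int.natCast_dvd_natCast.mpr hMN).trans h1))

@[simp] theorem coe_cuspFormOfDvd {N M : ℕ} [NeZero N] [NeZero M] {k : ℤ} (hMN : M ∣ N)
    (f : CuspForm (Gamma0 M) k) : ⇑(cuspFormOfDvd (N := N) hMN f) = ⇑f := rfl

namespace IsALMatrix

variable {q M : ℕ} {A : GL (Fin 2) ℝ} {a b c d : ℤ}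

/-- An Atkin–Lehner matrix is the image of a rational matrix. -/
theorem exists_eq_map (hA : IsALMatrix q M A a b c d) (hq : q ≠ 0) :
    ∃ g : GL (Fin 2) ℚ, A = Matrix.GeneralLinearGroup.map (Rat.castHom ℝ) g := by
  have hD : (q : ℚ) * a * d - (M : ℚ) * b * c = 1 := by exact_mod_cast hA.det_rel
  have hq0 : (q : ℚ) ≠ 0 := by exact_mod_cast hq
  refine ⟨Matrix.GeneralLinearGroup.mkOfDetNeZero
    !![(q : ℚ) * a, (b : ℚ); (q : ℚ) * M * c, (q : ℚ) * d] ?_, ?_⟩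
  · rw [Matrix.det_fin_two_of]
    have : (q : ℚ) * a * (q * d) - b * (q * M * c) = q := by linear_combination (q : ℚ) * hD
    rw [this]
    exact hq0
  · ext i j
    fin_cases i <;> fin_cases j <;>
      simp [Matrix.GeneralLinearGroup.mkOfDetNeZero, hA.apply_zero_zero, hA.apply_zero_one,
        hA.apply_one_zero, hA.apply_one_one]

variable [Fact q.Prime] [NeZero M]

/-- `q * M ≠ 0`. -/
theorem neZero_mul (q M : ℕ) [Fact q.Prime] [NeZero M] : NeZero (q * M) :=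
  ⟨Nat.mul_ne_zero (Fact.out : q.Prime).ne_zero (NeZero.ne M)⟩

/-- The Atkin–Lehner operator `f ↦ f ∣[k] A` on cusp forms of level `Γ₀(q M)`. -/
def slashCuspForm (hA : IsALMatrix q M A a b c d) {k : ℤ}
    (f : CuspForm (Gamma0 (q * M)) k) : CuspForm (Gamma0 (q * M)) k :=
  haveI := neZero_mul q M
  cuspFormOfFun ((⇑f : ℍ → ℂ) ∣[k] A) ((CuspFormClass.holo f).slash k A)
    (fun {c} hc ↦ by
      obtain ⟨g, hg⟩ := hA.exists_eq_map (Fact.out : q.Prime).ne_zero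
      rw [hg]
      exact P2MW.S_CuspFormClass_isZeroAt_heckeU.ModularForm.S06W2.isZeroAt_slash_ratCast f g
        ((Subgroup.IsArithmetic.isCusp_iff_isCusp_SL2Z _).mpr hc))
    (hA.slash_slash_eq_of_mem_Gamma0 k (SlashInvariantFormClass.slash_action_eq f))

@[simp] theorem coe_slashCuspForm (hA : IsALMatrix q M A a b c d) {k : ℤ}
    (f : CuspForm (Gamma0 (q * M)) k) : ⇑(hA.slashCuspForm f) = (⇑f : ℍ → ℂ) ∣[k] A := rfl

/-- The trace of `f ∣ A` from level `q M` to level `M`: the cusp form of level `Γ₀(M)` with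
underlying function `heckeU k q f + f ∣[k] A`. -/
def traceCuspForm (hA : IsALMatrix q M A a b c d) {k : ℤ}
    (f : CuspForm (Gamma0 (q * M)) k) : CuspForm (Gamma0 M) k :=
  haveI := neZero_mul q M
  cuspFormOfFun (heckeU k q (⇑f) + (⇑f : ℍ → ℂ) ∣[k] A)
    ((ModularForm.mdifferentiable_heckeU (CuspFormClass.holo f) k q).add
      ((CuspFormClass.holo f).slash k A))
    (fun {c} hc ↦ by
      have hc' : IsCusp c (Gamma0 (q * M) : Subgroup (GL (Fin 2) ℝ)) :=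
        (Subgroup.IsArithmetic.isCusp_iff_isCusp_SL2Z _).mpr hc
      refine (CuspFormClass.isZeroAt_heckeU f q hc').add ?_
      obtain ⟨g, hg⟩ := hA.exists_eq_map (Fact.out : q.Prime).ne_zero
      rw [hg]
      exact P2MW.S_CuspFormClass_isZeroAt_heckeU.ModularForm.S06W2.isZeroAt_slash_ratCast f g
        hc')
    (hA.heckeU_add_slash_eq_self_of_mem_Gamma0 k (SlashInvariantFormClass.slash_action_eq f))

@[simp] theorem coe_traceCuspForm (hA : IsALMatrix q M A a b c d) {k : ℤ}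
    (f : CuspForm (Gamma0 (q * M)) k) :
    ⇑(hA.traceCuspForm f) = heckeU k q (⇑f) + (⇑f : ℍ → ℂ) ∣[k] A := rfl

end IsALMatrix

end Fermat.Agent.Lib.Newform.H503
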