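import Fermat.Agent.Lib.Newform.H958.Spec
import Fermat.Agent.Lib.Newform.H923.AL
import Fermat.Agent.Lib.Newform.H503.Descent

/-!
# NEWFORM lib: the leaves `TraceAL` and `LowerU` of helper958's `Spec.lean`  (helper503)

* `traceAL : H958.TraceAL` — from the trace identity (`H503/TraceInv.lean`), the descent
  (`H503/Descent.lean`) and helper923's `slash_AL_slash_AL`, `heckeT_slash_AL`.
* `lowerU : H958.LowerU` — `U_q` lowers the level from `N` to `N / q` when `q² ∣ N`.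
-/

set_option autoImplicit false

noncomputable section

open Matrix.SpecialLinearGroup UpperHalfPlane ModularForm CongruenceSubgroup
open scoped MatrixGroups ModularForm OnePoint Manifold
open P2MW.S_ModularForm_heckeU_slash_eq_self_of_mem_Gamma0.ModularForm.HeckeSlashInvariance

namespace Fermat.Agent.Lib.Newform.H503

open Fermat.Agent.Lib.Newform

/-- Our Atkin–Lehner matrices are Atkin–Lehner matrices in the sense of helper923. -/
theorem IsALMatrix.isAL {q M : ℕ} {A : GL (Fin 2) ℝ} {a b c d : ℤ}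
    (hA : IsALMatrix q M A a b c d) : H923.IsAL q M A := by
  refine ⟨a, b, c, d, ?_, hA.det_rel⟩
  unfold H923.IsInt
  rw [hA.val_eq]
  push_cast
  rfl

/-- `U_q` lowers the level when `q² ∣ N` (function level, any weight). -/
theorem heckeU_slash_mapGL_of_sq_dvd {N q : ℕ} [NeZero q] (hq2 : q ^ 2 ∣ N) (k : ℤ) (f : ℍ → ℂ)
    (hf : ∀ γ ∈ (Gamma0 N : Subgroup (GL (Fin 2) ℝ)), f ∣[k] γ = f)
    (g : SL(2, ℤ)) (hg : g ∈ Gamma0 (N / q)) :
    heckeU k q f ∣[k] (mapGL ℝ g) = heckeU k q f := by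
  have hqN : q ∣ N := (Dvd.intro_left _ (pow_two q).symm).trans hq2
  have hqM : q ∣ N / q := by
    obtain ⟨t, ht⟩ := hq2
    refine ⟨t, ?_⟩
    rw [ht, pow_two, mul_assoc, Nat.mul_div_cancel_left _ (Nat.pos_of_ne_zero (NeZero.ne q))]
  have hN : q * (N / q) = N := Nat.mul_div_cancel' hqN
  have hcM : ((N / q : ℕ) : ℤ) ∣ g 1 0 :=
    (ZMod.intCast_zmod_eq_zero_iff_dvd _ _).mp (Gamma0_mem.mp hg)
  have hc : (q : ℤ) ∣ g 1 0 := (Int.natCast_dvd_natCast.mpr hqM).trans hcM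
  rw [heckeU_eq_sum_zmod k f, SlashAction.sum_slash]
  calc ∑ x : ZMod q, (f ∣[k] heckeMatrix q x.val) ∣[k] mapGL ℝ g
      = ∑ x : ZMod q, f ∣[k] heckeMatrix q
          (affinePerm g ((ZMod.intCast_zmod_eq_zero_iff_dvd _ _).mpr hc) x).val := by
        refine Finset.sum_congr rfl fun x _ ↦ ?_
        obtain ⟨g', hg', hmul⟩ := heckeMatrix_mul_of_dvd g hc x
        have hg'N : g' ∈ Gamma0 N := by
          rw [Gamma0_mem, hg', ZMod.intCast_zmod_eq_zero_iff_dvd]
          obtain ⟨t, ht⟩ := hcM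
          refine ⟨t, ?_⟩
          rw [ht, ← mul_assoc]
          congr 1
          exact_mod_cast hN
        rw [← SlashAction.slash_mul, hmul, SlashAction.slash_mul,
          hf _ (Subgroup.mem_map_of_mem (mapGL ℝ) hg'N)]
    _ = ∑ x : ZMod q, f ∣[k] heckeMatrix q x.val :=
        Equiv.sum_comp (affinePerm g _) (fun x ↦ f ∣[k] heckeMatrix q x.val)

/-- `U_q` lowers the level when `q² ∣ N`, bundled (any weight). -/
def heckeULower {N q : ℕ} [NeZero N] (hq : q.Prime) (hq2 : q ^ 2 ∣ N) {k : ℤ}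
    (f : CuspForm (Gamma0 N) k) : CuspForm (Gamma0 (N / q)) k :=
  haveI : NeZero q := ⟨hq.ne_zero⟩
  haveI : NeZero (N / q) := ⟨by
    have hqN : q ∣ N := (Dvd.intro_left _ (pow_two q).symm).trans hq2
    exact (Nat.div_pos (Nat.le_of_dvd (Nat.pos_of_ne_zero (NeZero.ne N)) hqN) hq.pos).ne'⟩
  cuspFormOfFun (heckeU k q (⇑f))
    (ModularForm.mdifferentiable_heckeU (CuspFormClass.holo f) k q)
    (fun {c} hc ↦ CuspFormClass.isZeroAt_heckeU f q
      ((Subgroup.IsArithmetic.isCusp_iff_isCusp_SL2Z _).mpr hc))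
    (fun γ hγ ↦ by
      obtain ⟨g, hg, rfl⟩ := hγ
      exact heckeU_slash_mapGL_of_sq_dvd hq2 k _ (SlashInvariantFormClass.slash_action_eq f) g hg)

@[simp] theorem coe_heckeULower {N q : ℕ} [NeZero N] (hq : q.Prime) (hq2 : q ^ 2 ∣ N) {k : ℤ}
    (f : CuspForm (Gamma0 N) k) : ⇑(heckeULower hq hq2 f) = heckeU k q (⇑f) := rfl

/-- The leaf **LOWER-U** of the NEWFORM interface. -/
theorem lowerU : H958.LowerU := by
  intro N q _ hq hq2 f
  exact ⟨heckeULower hq hq2 f, rfl⟩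

/-- The Atkin–Lehner operator as a linear map. -/
def IsALMatrix.slashLin {q M : ℕ} {A : GL (Fin 2) ℝ} {a b c d : ℤ} [Fact q.Prime] [NeZero M]
    (hA : IsALMatrix q M A a b c d) (k : ℤ) :
    CuspForm (Gamma0 (q * M)) k →ₗ[ℂ] CuspForm (Gamma0 (q * M)) k where
  toFun := hA.slashCuspForm
  map_add' f g := by
    apply DFunLike.coe_injective
    show ((⇑f + ⇑g : ℍ → ℂ)) ∣[k] A = (⇑f : ℍ → ℂ) ∣[k] A + (⇑g : ℍ → ℂ) ∣[k] A
    exact SlashAction.add_slash k A _ _
  map_smul' z f := by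
    apply DFunLike.coe_injective
    show ((z • ⇑f : ℍ → ℂ)) ∣[k] A = z • ((⇑f : ℍ → ℂ) ∣[k] A)
    have hdet : 0 < (A.det : ℝ) := by
      rw [Matrix.GeneralLinearGroup.val_det_apply, hA.val_eq, Matrix.det_fin_two_of]
      have h := hA.det_rel_real
      have hq : (0 : ℝ) < q := by exact_mod_cast (Fact.out : q.Prime).pos
      have : (q : ℝ) * a * (q * d) - b * (q * M * c) = q := by linear_combination (q : ℝ) * h
      rw [this]
      exact hq
    rw [ModularForm.smul_slash, UpperHalfPlane.σ, if_pos hdet]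
    rfl

@[simp] theorem IsALMatrix.coe_slashLin {q M : ℕ} {A : GL (Fin 2) ℝ} {a b c d : ℤ}
    [Fact q.Prime] [NeZero M] (hA : IsALMatrix q M A a b c d) (k : ℤ)
    (f : CuspForm (Gamma0 (q * M)) k) : ⇑(hA.slashLin k f) = (⇑f : ℍ → ℂ) ∣[k] A := rfl

/-- The leaf **TRACE-AL** of the NEWFORM interface. -/
theorem traceAL : H958.TraceAL := by
  intro N q _ hq hqN hq2
  obtain ⟨M, rfl⟩ := hqN
  have hqM : ¬ q ∣ M := fun h => hq2 (by rw [pow_two]; exact Nat.mul_dvd_mul_left q h)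
  have hdiv : q * M / q = M := Nat.mul_div_cancel_left M hq.pos
  rw [hdiv]
  have : Fact q.Prime := ⟨hq⟩
  have : NeZero M := ⟨fun h => hqM (h ▸ dvd_zero q)⟩
  obtain ⟨A, a, b, hA⟩ := exists_isALMatrix hq hqM
  refine ⟨hA.slashLin 2, ?_, ?_, ?_⟩
  · intro ℓ hℓ hℓN f
    apply DFunLike.coe_injective
    show (heckeT 2 ℓ (⇑f) : ℍ → ℂ) ∣[(2 : ℤ)] A = heckeT 2 ℓ ((⇑f : ℍ → ℂ) ∣[(2 : ℤ)] A)
    exact H923.heckeT_slash_AL 2 hq.ne_zero hℓ hℓN
      (H923.invUnder_of_slashInvariantFormClass f) hA.isAL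
  · intro f
    refine ⟨hA.traceCuspForm (hA.slashLin 2 f), ?_⟩
    rw [IsALMatrix.coe_traceCuspForm, IsALMatrix.coe_slashLin,
      H923.slash_AL_slash_AL hq.ne_zero (H923.invUnder_of_slashInvariantFormClass f) hA.isAL,
      add_comm]
  · intro f
    refine ⟨hA.traceCuspForm f, ?_⟩
    rw [IsALMatrix.coe_traceCuspForm, IsALMatrix.coe_slashLin, add_comm]

end Fermat.Agent.Lib.Newform.H503
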